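import Fermat.Agent.S51.Tors.Torsion
import Fermat.Agent.S51.Defs
import Fermat.Agent.S51.DupRoots

/-!
# S51: the two elliptic-curve inputs `three` and `five` of `Wiring.result_of_inputs`
-/

set_option autoImplicit false

namespace Fermat.Agent.S51.Tors.Inputs

open WeierstrassCurve Fermat.Agent.S51 Fermat.Agent.S51.Tors.Torsion

lemma qA_eq_redA (W : WeierstrassCurve ℤ) : qA W = redA W := by
  rw [qA_eq]; rfl

lemma qB_eq_redB (W : WeierstrassCurve ℤ) : qB W = redB W := by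
  rw [qB_eq]; rfl

/-- input `three` of `Fermat.Agent.S51.result_of_inputs` -/
theorem three (W : WeierstrassCurve ℤ) (hΔ : W.Δ ≠ 0) (h : ¬ W.ModRepIsIrreducible 3) :
    ∃ x : ℚ, 3 * x ^ 4 + 6 * redA W * x ^ 2 + 12 * redB W * x - redA W ^ 2 = 0 := by
  obtain ⟨X, hX⟩ := three_of_not_irreducible W hΔ h
  rw [qA_eq_redA, qB_eq_redB] at hX
  exact ⟨X, hX⟩

/-- input `five` of `Fermat.Agent.S51.result_of_inputs` -/
theorem five (W : WeierstrassCurve ℤ) (hΔ : W.Δ ≠ 0) (h : ¬ W.ModRepIsIrreducible 5) :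
    ∃ s t : ℚ, s ^ 2 - 4 * t ≠ 0 ∧
      redA W ^ 2 + 2 * (s ^ 2 - t) * redA W - (s ^ 4 - 5 * s ^ 2 * t - 5 * t ^ 2) = 0 ∧
      12 * s * redB W =
        2 * redA W ^ 2 - 2 * redA W * (s ^ 2 + 2 * t) + s ^ 4 - 8 * s ^ 2 * t + 10 * t ^ 2 ∧
      ∀ x : ℚ, 3 * x ^ 4 + 6 * redA W * x ^ 2 + 12 * redB W * x - redA W ^ 2 = 0 →
        x ^ 2 - s * x + t ≠ 0 := by
  obtain ⟨x₁, x₂, ⟨s, hs⟩, ⟨t, ht⟩, hne, -, -, hr1, hr2⟩ := five_of_not_irreducible W hΔ h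
  rw [qA_eq_redA, qB_eq_redB] at hr1 hr2
  have hd : DupAlgebra.disc (redA W) (redB W) ≠ 0 := by
    have h1 := discF_qA_qB W
    rw [qA_eq_redA, qB_eq_redB] at h1
    have h2 : DupAlgebra.disc (redA W) (redB W) = -(W.Δ : ℚ) / 16 := by
      rw [← h1]; rfl
    rw [h2]
    have : (W.Δ : ℚ) ≠ 0 := by exact_mod_cast hΔ
    exact div_ne_zero (neg_ne_zero.mpr this) (by norm_num)
  have e : ∀ q : ℚ, (Rat.castHom (AlgebraicClosure ℚ)) q = (q : AlgebraicClosure ℚ) :=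
    fun q => rfl
  refine ⟨s, t, DupRoots.five_data_of_pair (Rat.castHom (AlgebraicClosure ℚ)) (redA W) (redB W)
    s t hd (x₁ := x₁) (x₂ := x₂) ((e s).symm ▸ hs.symm) ((e t).symm ▸ ht.symm) hne ?_ ?_⟩
  · simp only [DupAlgebra.dupNum, DupAlgebra.cubic, e]
    rw [← hr1]
    ring
  · simp only [DupAlgebra.dupNum, DupAlgebra.cubic, e]
    rw [← hr2]
    ring

end Fermat.Agent.S51.Tors.Inputs
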