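import Fermat.Agent.S51.Tors.PointX

/-!
# S51, elliptic-curve side, part 3: equations satisfied by 3- and 5-torsion points, and counting
-/

set_option linter.unusedSectionVars false

namespace Fermat.Agent.S51.Tors.Count

open WeierstrassCurve Polynomial Fermat.Agent.S51.Tors.Dup Fermat.Agent.S51.Tors.PointX

section Equations

variable {F : Type*} [Field F] [DecidableEq F] [CharZero F] (W : WeierstrassCurve.Affine F)

/-- a nonzero 3-torsion point has `ψ₃(X) = 0` -/
theorem psi3_of_three_torsion {P : W.Point} (hP : P ≠ 0) (h3 : (3 : ℤ) • P = 0) :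
    psi3F (cA W) (cB W) (sx W P) = 0 := by
  have e : P + P = -P := by
    have : P + P + P = 0 := by rw [← h3]; abel
    exact eq_neg_of_add_eq_zero_left this
  have h2 : P + P ≠ 0 := by rw [e]; exact neg_ne_zero.mpr hP
  have h := sx_add_self W hP h2
  rw [e, sx_neg] at h
  rw [psi3F_eq, h, sub_self]

/-- the data attached to a nonzero 5-torsion point -/
theorem five_torsion {P : W.Point} (hP : P ≠ 0) (h5 : (5 : ℤ) • P = 0) :
    P + P ≠ 0 ∧ (P + P) + (P + P) = -P ∧ sx W P ≠ sx W (P + P) ∧
      fF (cA W) (cB W) (sx W P) ≠ 0 ∧ fF (cA W) (cB W) (sx W (P + P)) ≠ 0 ∧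
      sx W (P + P) * (4 * fF (cA W) (cB W) (sx W P)) = nF (cA W) (cB W) (sx W P) ∧
      sx W P * (4 * fF (cA W) (cB W) (sx W (P + P))) = nF (cA W) (cB W) (sx W (P + P)) := by
  have hQ : P + P ≠ 0 := by
    intro h0
    apply hP
    have : P = (5 : ℤ) • P - ((P + P) + (P + P)) := by abel
    rw [this, h5, h0]; simp
  have h4 : (P + P) + (P + P) = -P := by
    have : (P + P) + (P + P) = (5 : ℤ) • P - P := by abel
    rw [this, h5, zero_sub]
  have hQQ : (P + P) + (P + P) ≠ 0 := by rw [h4]; exact neg_ne_zero.mpr hP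
  have hne : sx W P ≠ sx W (P + P) := by
    intro he
    rcases (sx_eq_iff W hP hQ).mp he with h | h
    · apply hP
      have : P = (P + P) - P := by abel
      rw [this, ← h, sub_self]
    · apply hP
      have h' : P + (P + P) = 0 := eq_neg_iff_add_eq_zero.mp h
      have : P = (P + (P + P)) + (P + (P + P)) - (5 : ℤ) • P := by abel
      rw [this, h5, h']; simp
  refine ⟨hQ, h4, hne, ?_, ?_, sx_add_self W hP hQ, ?_⟩
  · exact fun h => hQ ((add_self_eq_zero_iff W hP).mpr h)
  · exact fun h => hQQ ((add_self_eq_zero_iff W hQ).mpr h)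
  · have := sx_add_self W hQ hQQ
    rwa [h4, sx_neg] at this

/-- the degree 16 equation follows from the two duplication relations -/
theorem g16F_of_rel {A B x₁ x₂ : F} (h1 : x₂ * (4 * fF A B x₁) = nF A B x₁) :
    g16F A B x₁ = (4 * fF A B x₁) ^ 4 * (nF A B x₂ - x₁ * (4 * fF A B x₂)) := by
  have e1 : (4 * fF A B x₁) ^ 4 * nF A B x₂ =
      (x₂ * (4 * fF A B x₁)) ^ 4 - 2 * A * (x₂ * (4 * fF A B x₁)) ^ 2 * (4 * fF A B x₁) ^ 2
        - 8 * B * (x₂ * (4 * fF A B x₁)) * (4 * fF A B x₁) ^ 3 + A ^ 2 * (4 * fF A B x₁) ^ 4 := by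
    generalize 4 * fF A B x₁ = u
    simp only [nF]; ring
  have e2 : (4 * fF A B x₁) ^ 4 * (x₁ * (4 * fF A B x₂)) =
      4 * x₁ * (4 * fF A B x₁) * ((x₂ * (4 * fF A B x₁)) ^ 3
        + A * (x₂ * (4 * fF A B x₁)) * (4 * fF A B x₁) ^ 2 + B * (4 * fF A B x₁) ^ 3) := by
    generalize 4 * fF A B x₁ = u
    simp only [fF]; ring
  rw [mul_sub, e1, e2, h1]
  simp only [g16F]

theorem g16F_of_five_torsion {P : W.Point} (hP : P ≠ 0) (h5 : (5 : ℤ) • P = 0) :
    g16F (cA W) (cB W) (sx W P) = 0 := by
  obtain ⟨-, -, -, -, -, h1, h2⟩ := five_torsion W hP h5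
  rw [g16F_of_rel h1, h2, sub_self, mul_zero]

end Equations

section Counting

variable {F : Type*} [Field F] [DecidableEq F] [CharZero F] (W : WeierstrassCurve.Affine F)

/-- a finite set of nonzero points whose shifted `x`-coordinates are roots of a nonzero
polynomial `g` has at most `2 deg g` elements -/
theorem card_le_of_roots (g : F[X]) (hg : g ≠ 0) (T : Finset W.Point)
    (hT : ∀ P ∈ T, P ≠ 0 ∧ g.eval (sx W P) = 0) : T.card ≤ 2 * g.natDegree := by
  classical
  have h1 : T.card ≤ 2 * (T.image (sx W)).card := by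
    apply Finset.card_le_mul_card_image
    intro a ha
    obtain ⟨P₀, hP₀, rfl⟩ := Finset.mem_image.mp ha
    have hsub : T.filter (fun P => sx W P = sx W P₀) ⊆ {P₀, -P₀} := by
      intro P hP
      rw [Finset.mem_filter] at hP
      rcases (sx_eq_iff W (hT P hP.1).1 (hT P₀ hP₀).1).mp hP.2 with h | h
      · rw [h]; exact Finset.mem_insert_self _ _
      · rw [h]; exact Finset.mem_insert_of_mem (Finset.mem_singleton_self _)
    exact (Finset.card_le_card hsub).trans Finset.card_le_two
  have h2 : (T.image (sx W)).card ≤ g.natDegree := by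
    have hsub : T.image (sx W) ⊆ g.roots.toFinset := by
      intro a ha
      obtain ⟨P, hP, rfl⟩ := Finset.mem_image.mp ha
      rw [Multiset.mem_toFinset, mem_roots hg]
      exact (hT P hP).2
    exact (Finset.card_le_card hsub).trans ((Multiset.toFinset_card_le _).trans (card_roots' g))
  omega

/-- the polynomial `ψ₃` -/
noncomputable def psi3P (A B : F) : F[X] := psi3F (C A) (C B) X

/-- the polynomial `ψ₅` -/
noncomputable def psi5P (A B : F) : F[X] := psi5F (C A) (C B) X

/-- the degree 16 polynomial -/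
noncomputable def g16P (A B : F) : F[X] := g16F (C A) (C B) X

lemma eval_psi3P (A B x : F) : (psi3P A B).eval x = psi3F A B x := by
  simp [psi3P, psi3F]

lemma eval_psi5P (A B x : F) : (psi5P A B).eval x = psi5F A B x := by
  simp [psi5P, psi5F, psi3F, fF, gF]

lemma eval_g16P (A B x : F) : (g16P A B).eval x = g16F A B x := by
  simp [g16P, g16F, nF, fF]

lemma natDegree_psi3P (A B : F) : (psi3P A B).natDegree = 4 := by
  unfold psi3P psi3F
  compute_degree!

lemma natDegree_g16P (A B : F) : (g16P A B).natDegree = 16 := by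
  unfold g16P g16F nF fF
  compute_degree!

lemma psi3P_ne_zero (A B : F) : psi3P A B ≠ 0 := by
  intro h
  have := natDegree_psi3P A B
  rw [h, natDegree_zero] at this
  omega

lemma g16P_ne_zero (A B : F) : g16P A B ≠ 0 := by
  intro h
  have := natDegree_g16P A B
  rw [h, natDegree_zero] at this
  omega

lemma g16P_eq (A B : F) : g16P A B = -(psi3P A B * psi5P A B) := g16F_eq _ _ _

lemma psi5P_ne_zero (A B : F) : psi5P A B ≠ 0 := by
  intro h
  apply g16P_ne_zero A B
  rw [g16P_eq, h, mul_zero, neg_zero]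

lemma natDegree_psi5P (A B : F) : (psi5P A B).natDegree = 12 := by
  have h := natDegree_g16P A B
  rw [g16P_eq, natDegree_neg, natDegree_mul (psi3P_ne_zero A B) (psi5P_ne_zero A B),
    natDegree_psi3P] at h
  omega

/-- at most 8 nonzero 3-torsion points in any finite set -/
theorem card_three_torsion_le (T : Finset W.Point)
    (hT : ∀ P ∈ T, P ≠ 0 ∧ (3 : ℤ) • P = 0) : T.card ≤ 8 := by
  have := card_le_of_roots W (psi3P (cA W) (cB W)) (psi3P_ne_zero _ _) T (fun P hP => by
    refine ⟨(hT P hP).1, ?_⟩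
    rw [eval_psi3P]
    exact psi3_of_three_torsion W (hT P hP).1 (hT P hP).2)
  rwa [natDegree_psi3P] at this

/-- at most 32 nonzero 5-torsion points in any finite set -/
theorem card_five_torsion_le (T : Finset W.Point)
    (hT : ∀ P ∈ T, P ≠ 0 ∧ (5 : ℤ) • P = 0) : T.card ≤ 32 := by
  have := card_le_of_roots W (g16P (cA W) (cB W)) (g16P_ne_zero _ _) T (fun P hP => by
    refine ⟨(hT P hP).1, ?_⟩
    rw [eval_g16P]
    exact g16F_of_five_torsion W (hT P hP).1 (hT P hP).2)
  rwa [natDegree_g16P] at this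

end Counting

section Line

/-- In a `ZMod p`-module in which every finite set of nonzero vectors has at most `B` elements
with `B + 1 < p ^ 3`, a proper nonzero submodule is a line. -/
theorem exists_generator {p : ℕ} [Fact p.Prime] {M : Type*} [AddCommGroup M] [Module (ZMod p) M]
    (B : ℕ) (hB : B + 1 < p ^ 3) (hM : ∀ T : Finset M, (∀ v ∈ T, v ≠ 0) → T.card ≤ B)
    (N : Submodule (ZMod p) M) (h0 : N ≠ ⊥) (h1 : N ≠ ⊤) :
    ∃ v ∈ N, v ≠ 0 ∧ ∀ w ∈ N, ∃ c : ZMod p, w = c • v := by
  classical
  obtain ⟨v, hvN, hv0⟩ := Submodule.exists_mem_ne_zero_of_ne_bot h0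
  refine ⟨v, hvN, hv0, ?_⟩
  by_contra hcon
  push Not at hcon
  obtain ⟨w, hwN, hw⟩ := hcon
  obtain ⟨r, hr⟩ : ∃ r : M, r ∉ N := by
    by_contra hall
    push Not at hall
    exact h1 (Submodule.eq_top_iff'.mpr hall)
  let φ : (ZMod p × ZMod p × ZMod p) →ₗ[ZMod p] M :=
    (LinearMap.toSpanSingleton (ZMod p) M v).coprod
      ((LinearMap.toSpanSingleton (ZMod p) M w).coprod (LinearMap.toSpanSingleton (ZMod p) M r))
  have hφ : ∀ t, φ t = t.1 • v + (t.2.1 • w + t.2.2 • r) := by
    intro t
    simp [φ, LinearMap.coprod_apply, LinearMap.toSpanSingleton_apply]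
  have hinj : Function.Injective φ := by
    rw [injective_iff_map_eq_zero]
    rintro ⟨a, b, c⟩ ht
    rw [hφ] at ht
    simp only at ht
    have hc : c = 0 := by
      by_contra hc
      apply hr
      have : r = (-c⁻¹) • (a • v + b • w) := by
        have h2 : c • r = -(a • v + b • w) := by
          rw [eq_neg_iff_add_eq_zero]; rw [← ht]; abel
        rw [neg_smul, ← smul_neg, ← h2, smul_smul, inv_mul_cancel₀ hc, one_smul]
      rw [this]
      exact N.smul_mem _ (N.add_mem (N.smul_mem _ hvN) (N.smul_mem _ hwN))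
    subst hc
    rw [zero_smul, add_zero] at ht
    have hb : b = 0 := by
      by_contra hb
      apply hw (-b⁻¹ * a)
      have h2 : b • w = -(a • v) := by
        rw [eq_neg_iff_add_eq_zero]; rw [← ht]; abel
      rw [mul_smul, neg_smul, ← smul_neg, ← h2, smul_smul, inv_mul_cancel₀ hb, one_smul]
    subst hb
    rw [zero_smul, add_zero] at ht
    have ha : a = 0 := by
      by_contra ha
      apply hv0
      rw [← one_smul (ZMod p) v, ← inv_mul_cancel₀ ha, mul_smul, ht, smul_zero]
    subst ha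
    rfl
  let T : Finset M := (Finset.univ.erase (0 : ZMod p × ZMod p × ZMod p)).image φ
  have hT0 : ∀ v ∈ T, v ≠ 0 := by
    intro u hu
    obtain ⟨t, ht, rfl⟩ := Finset.mem_image.mp hu
    intro h0
    have : t = 0 := hinj (by rw [h0, map_zero])
    exact (Finset.mem_erase.mp ht).1 this
  have hcard : T.card = p ^ 3 - 1 := by
    rw [Finset.card_image_of_injective _ hinj, Finset.card_erase_of_mem (Finset.mem_univ _),
      Finset.card_univ, Fintype.card_prod, Fintype.card_prod, ZMod.card]
    ring_nf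
  have := hM T hT0
  rw [hcard] at this
  omega

end Line

end Fermat.Agent.S51.Tors.Count
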