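import Mathlib

/-!
# S51, elliptic-curve side, part 1: the duplication formula in shifted coordinates

For a Weierstrass curve `W` over a field `F` of characteristic zero we use the shifted
`x`-coordinate `X = x + b₂/12` and the short-form invariants `A = -c₄/48`, `B = -c₆/864`.
Then `(2y + a₁x + a₃)² = 4 (X³ + A X + B)` on the curve and
`X(2P) · 4 (X³ + A X + B) = X⁴ - 2 A X² - 8 B X + A²`.
-/

namespace Fermat.Agent.S51.Tors.Dup

open WeierstrassCurve

section Polys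

variable {R : Type*} [CommRing R]

/-- the cubic `X³ + A X + B` -/
def fF (A B X : R) : R := X ^ 3 + A * X + B

/-- numerator of the duplication map -/
def nF (A B X : R) : R := X ^ 4 - 2 * A * X ^ 2 - 8 * B * X + A ^ 2

/-- third division polynomial -/
def psi3F (A B X : R) : R := 3 * X ^ 4 + 6 * A * X ^ 2 + 12 * B * X - A ^ 2

/-- `ψ₄ / (4y)` -/
def gF (A B X : R) : R :=
  X ^ 6 + 5 * A * X ^ 4 + 20 * B * X ^ 3 - 5 * A ^ 2 * X ^ 2 - 4 * A * B * X - 8 * B ^ 2 - A ^ 3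

/-- fifth division polynomial -/
def psi5F (A B X : R) : R := 32 * fF A B X ^ 2 * gF A B X - psi3F A B X ^ 3

/-- the discriminant `4A³ + 27B²` -/
def discF (A B : R) : R := 4 * A ^ 3 + 27 * B ^ 2

/-- the degree 16 polynomial expressing `X(4P) = X(P)` -/
def g16F (A B X : R) : R :=
  nF A B X ^ 4 - 2 * A * nF A B X ^ 2 * (4 * fF A B X) ^ 2 - 8 * B * nF A B X * (4 * fF A B X) ^ 3
    + A ^ 2 * (4 * fF A B X) ^ 4
    - 4 * X * (4 * fF A B X) *
      (nF A B X ^ 3 + A * nF A B X * (4 * fF A B X) ^ 2 + B * (4 * fF A B X) ^ 3)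

lemma psi3F_eq (A B X : R) : psi3F A B X = X * (4 * fF A B X) - nF A B X := by
  simp only [psi3F, fF, nF]; ring

/-- (I1) -/
lemma fF_dup (A B X : R) :
    nF A B X ^ 3 + A * nF A B X * (4 * fF A B X) ^ 2 + B * (4 * fF A B X) ^ 3 = gF A B X ^ 2 := by
  simp only [fF, nF, gF]; ring

/-- (I2) -/
lemma g16F_eq (A B X : R) : g16F A B X = -(psi3F A B X * psi5F A B X) := by
  simp only [g16F, psi5F, psi3F, fF, nF, gF]; ring

/-- (B1) -/
lemma bezout_f_psi3 (A B X : R) :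
    (9 * X ^ 3 + 21 * A * X + 27 * B) * fF A B X + (-3 * X ^ 2 - 4 * A) * psi3F A B X
      = discF A B := by
  simp only [psi3F, fF, discF]; ring

/-- (B2) -/
lemma bezout_psi3_g (A B X : R) :
    (54 * X ^ 5 * B + 12 * X ^ 4 * A ^ 2 + 252 * X ^ 3 * A * B + 60 * X ^ 2 * A ^ 3
        + 1107 * X ^ 2 * B ^ 2 - 114 * X * A ^ 2 * B - 56 * A ^ 4 - 423 * A * B ^ 2) * psi3F A B X
      + (-162 * X ^ 3 * B - 36 * X ^ 2 * A ^ 2 - 270 * X * A * B - 72 * A ^ 3 - 729 * B ^ 2)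
        * gF A B X
      = 8 * discF A B ^ 2 := by
  simp only [psi3F, gF, discF]; ring

end Polys

section Curve

variable {F : Type*} [Field F] (W : WeierstrassCurve.Affine F)

/-- `A = -c₄/48` -/
def cA : F := -W.c₄ / 48

/-- `B = -c₆/864` -/
def cB : F := -W.c₆ / 864

/-- `η = 2y + a₁x + a₃`. -/
def eta (x y : F) : F := 2 * y + W.a₁ * x + W.a₃

lemma eta_eq (x y : F) : eta W x y = y - W.negY x y := by
  simp only [eta, Affine.negY]; ring

lemma eta_sq {x y : F} (h : W.Equation x y) :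
    eta W x y ^ 2 = 4 * x ^ 3 + W.b₂ * x ^ 2 + 2 * W.b₄ * x + W.b₆ := by
  rw [Affine.equation_iff] at h
  simp only [eta, WeierstrassCurve.b₂, WeierstrassCurve.b₄, WeierstrassCurve.b₆]
  linear_combination 4 * h

/-- duplication formula for the x-coordinate -/
lemma addX_self_mul [DecidableEq F] {x y : F} (h : W.Equation x y) (hy : y ≠ W.negY x y) :
    W.addX x x (W.slope x x y y) * eta W x y ^ 2 =
      x ^ 4 - W.b₄ * x ^ 2 - 2 * W.b₆ * x - W.b₈ := by
  have hη : eta W x y ≠ 0 := by rw [eta_eq]; exact sub_ne_zero.mpr hy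
  rw [Affine.slope_of_Y_ne rfl hy, ← eta_eq]
  rw [Affine.equation_iff] at h
  simp only [Affine.addX]
  have e1 : ((3 * x ^ 2 + 2 * W.a₂ * x + W.a₄ - W.a₁ * y) / eta W x y) ^ 2 * eta W x y ^ 2
      = (3 * x ^ 2 + 2 * W.a₂ * x + W.a₄ - W.a₁ * y) ^ 2 := by
    field_simp
  have e2 : ((3 * x ^ 2 + 2 * W.a₂ * x + W.a₄ - W.a₁ * y) / eta W x y) * eta W x y ^ 2
      = (3 * x ^ 2 + 2 * W.a₂ * x + W.a₄ - W.a₁ * y) * eta W x y := by
    field_simp
  have e3 : ∀ ℓ : F, (ℓ ^ 2 + W.a₁ * ℓ - W.a₂ - x - x) * eta W x y ^ 2 =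
      ℓ ^ 2 * eta W x y ^ 2 + W.a₁ * (ℓ * eta W x y ^ 2) - (W.a₂ + 2 * x) * eta W x y ^ 2 := by
    intro ℓ; ring
  rw [e3, e1, e2]
  simp only [eta, WeierstrassCurve.b₄, WeierstrassCurve.b₆, WeierstrassCurve.b₈]
  linear_combination (-8 * x - W.a₁ ^ 2 - 4 * W.a₂) * h

variable [CharZero F]

lemma discF_eq : discF (cA W) (cB W) = -W.Δ / 16 := by
  have h := W.c_relation
  simp only [discF, cA, cB]
  linear_combination (1 / 27648 : F) * h

lemma four_f_shift (x : F) :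
    4 * fF (cA W) (cB W) (x + W.b₂ / 12) = 4 * x ^ 3 + W.b₂ * x ^ 2 + 2 * W.b₄ * x + W.b₆ := by
  simp only [fF, cA, cB, WeierstrassCurve.c₄, WeierstrassCurve.c₆]
  ring

lemma nF_shift (x : F) :
    nF (cA W) (cB W) (x + W.b₂ / 12) =
      x ^ 4 - W.b₄ * x ^ 2 - 2 * W.b₆ * x - W.b₈
        + W.b₂ / 12 * (4 * x ^ 3 + W.b₂ * x ^ 2 + 2 * W.b₄ * x + W.b₆) := by
  have h := W.b_relation
  simp only [nF, cA, cB, WeierstrassCurve.c₄, WeierstrassCurve.c₆]
  linear_combination (1 / 4 : F) * h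

lemma eta_sq_shift {x y : F} (h : W.Equation x y) :
    eta W x y ^ 2 = 4 * fF (cA W) (cB W) (x + W.b₂ / 12) := by
  rw [four_f_shift, eta_sq W h]

/-- the duplication formula in shifted coordinates -/
lemma addX_self_shift [DecidableEq F] {x y : F} (h : W.Equation x y) (hy : y ≠ W.negY x y) :
    (W.addX x x (W.slope x x y y) + W.b₂ / 12) * (4 * fF (cA W) (cB W) (x + W.b₂ / 12)) =
      nF (cA W) (cB W) (x + W.b₂ / 12) := by
  rw [nF_shift, ← eta_sq_shift W h, add_mul, addX_self_mul W h hy, eta_sq W h]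

end Curve

end Fermat.Agent.S51.Tors.Dup
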