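import Fermat.Agent.S51.Tors.Count

/-!
# S51, elliptic-curve side, part 4: existence of points of order 3 and 5 over an
algebraically closed field of characteristic zero
-/

set_option linter.unusedSectionVars false

namespace Fermat.Agent.S51.Tors.Exists

open WeierstrassCurve Polynomial Fermat.Agent.S51.Tors.Dup Fermat.Agent.S51.Tors.PointX
  Fermat.Agent.S51.Tors.Count

variable {K : Type*} [Field K] [DecidableEq K] [CharZero K] [IsAlgClosed K]
  (W : WeierstrassCurve.Affine K)

/-- every element of `K` is the shifted `x`-coordinate of an affine point -/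
theorem exists_point_sx (hΔ : W.Δ ≠ 0) (X : K) : ∃ P : W.Point, P ≠ 0 ∧ sx W P = X := by
  obtain ⟨η, hη⟩ : ∃ η : K, η ^ 2 = 4 * fF (cA W) (cB W) X :=
    IsAlgClosed.exists_pow_nat_eq _ (by norm_num)
  have hX : X - W.b₂ / 12 + W.b₂ / 12 = X := by ring
  have h4 := four_f_shift W (X - W.b₂ / 12)
  rw [hX] at h4
  have heq : W.Equation (X - W.b₂ / 12) ((η - W.a₁ * (X - W.b₂ / 12) - W.a₃) / 2) := by
    rw [Affine.equation_iff]
    rw [h4] at hη
    simp only [WeierstrassCurve.b₂, WeierstrassCurve.b₄, WeierstrassCurve.b₆] at hη ⊢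
    linear_combination (1 / 4 : K) * hη
  refine ⟨Affine.Point.some _ _ ((Affine.equation_iff_nonsingular_of_Δ_ne_zero hΔ).mp heq),
    Affine.Point.some_ne_zero _, ?_⟩
  rw [sx_some, hX]

lemma discF_ne_zero (hΔ : W.Δ ≠ 0) : discF (cA W) (cB W) ≠ 0 := by
  rw [discF_eq]
  exact div_ne_zero (neg_ne_zero.mpr hΔ) (by norm_num)

/-- existence of a point of order 3 -/
theorem exists_three_torsion (hΔ : W.Δ ≠ 0) : ∃ P : W.Point, P ≠ 0 ∧ (3 : ℤ) • P = 0 := by
  obtain ⟨X, hX⟩ := IsAlgClosed.exists_root (psi3P (cA W) (cB W)) (by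
    rw [degree_eq_natDegree (psi3P_ne_zero _ _), natDegree_psi3P]; norm_num)
  rw [IsRoot, eval_psi3P] at hX
  obtain ⟨P, hP0, hPX⟩ := exists_point_sx W hΔ X
  refine ⟨P, hP0, ?_⟩
  have hf : fF (cA W) (cB W) X ≠ 0 := by
    intro hf
    have := bezout_f_psi3 (cA W) (cB W) X
    rw [hf, hX, mul_zero, mul_zero, add_zero] at this
    exact discF_ne_zero W hΔ this.symm
  have h2 : P + P ≠ 0 := by
    intro h2
    rw [add_self_eq_zero_iff W hP0, hPX] at h2
    exact hf h2
  have h := sx_add_self W hP0 h2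
  rw [hPX] at h
  have hx2 : sx W (P + P) = sx W P := by
    rw [hPX]
    have h4f : (4 : K) * fF (cA W) (cB W) X ≠ 0 := mul_ne_zero (by norm_num) hf
    apply mul_right_cancel₀ h4f
    rw [h]
    rw [psi3F_eq] at hX
    exact (sub_eq_zero.mp hX).symm
  rcases (sx_eq_iff W h2 hP0).mp hx2 with h' | h'
  · exfalso
    apply hP0
    have : P = (P + P) - P := by abel
    rw [this, h', sub_self]
  · have : (3 : ℤ) • P = (P + P) + P := by abel
    rw [this, h', neg_add_cancel]

/-- existence of a point of order 5 -/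
theorem exists_five_torsion (hΔ : W.Δ ≠ 0) : ∃ P : W.Point, P ≠ 0 ∧ (5 : ℤ) • P = 0 := by
  obtain ⟨X, hX⟩ := IsAlgClosed.exists_root (psi5P (cA W) (cB W)) (by
    rw [degree_eq_natDegree (psi5P_ne_zero _ _), natDegree_psi5P]; norm_num)
  rw [IsRoot, eval_psi5P] at hX
  obtain ⟨P, hP0, hPX⟩ := exists_point_sx W hΔ X
  refine ⟨P, hP0, ?_⟩
  have hD := discF_ne_zero W hΔ
  -- `ψ₃(X) ≠ 0`
  have hpsi3 : psi3F (cA W) (cB W) X ≠ 0 := by
    intro h3
    have h5 : (32 : K) * fF (cA W) (cB W) X ^ 2 * gF (cA W) (cB W) X = 0 := by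
      have := hX
      rw [psi5F, h3] at this
      linear_combination this
    have hfg : fF (cA W) (cB W) X = 0 ∨ gF (cA W) (cB W) X = 0 := by
      rcases mul_eq_zero.mp h5 with h | h
      · rcases mul_eq_zero.mp h with h | h
        · exact absurd h (by norm_num)
        · exact Or.inl (pow_eq_zero_iff (two_ne_zero) |>.mp h)
      · exact Or.inr h
    rcases hfg with hf | hg
    · have := bezout_f_psi3 (cA W) (cB W) X
      rw [hf, h3, mul_zero, mul_zero, add_zero] at this
      exact hD this.symm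
    · have := bezout_psi3_g (cA W) (cB W) X
      rw [hg, h3, mul_zero, mul_zero, add_zero] at this
      have h8 : (8 : K) * discF (cA W) (cB W) ^ 2 ≠ 0 :=
        mul_ne_zero (by norm_num) (pow_ne_zero _ hD)
      exact h8 this.symm
  have hfg : (32 : K) * fF (cA W) (cB W) X ^ 2 * gF (cA W) (cB W) X ≠ 0 := by
    intro h
    apply hpsi3
    have := hX
    rw [psi5F, h, zero_sub, neg_eq_zero] at this
    exact pow_eq_zero_iff (three_ne_zero) |>.mp this
  have hf : fF (cA W) (cB W) X ≠ 0 := by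
    intro h; apply hfg; rw [h]; ring
  have hg : gF (cA W) (cB W) X ≠ 0 := by
    intro h; apply hfg; rw [h]; ring
  have h4f : (4 : K) * fF (cA W) (cB W) X ≠ 0 := mul_ne_zero (by norm_num) hf
  -- `Q = 2P`
  have h2 : P + P ≠ 0 := by
    intro h2
    rw [add_self_eq_zero_iff W hP0, hPX] at h2
    exact hf h2
  have hrel1 := sx_add_self W hP0 h2
  rw [hPX] at hrel1
  set x₂ := sx W (P + P) with hx₂
  -- `f(x₂) ≠ 0`
  have hfx₂ : fF (cA W) (cB W) x₂ ≠ 0 := by
    intro h0
    have e : (4 * fF (cA W) (cB W) X) ^ 3 * fF (cA W) (cB W) x₂ = gF (cA W) (cB W) X ^ 2 := by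
      rw [← fF_dup, ← hrel1]
      generalize 4 * fF (cA W) (cB W) X = u
      simp only [fF]; ring
    rw [h0, mul_zero] at e
    exact hg (pow_eq_zero_iff (two_ne_zero) |>.mp e.symm)
  have h4 : (P + P) + (P + P) ≠ 0 := by
    intro h4
    rw [add_self_eq_zero_iff W h2, ← hx₂] at h4
    exact hfx₂ h4
  have hrel2 := sx_add_self W h2 h4
  rw [← hx₂] at hrel2
  -- `X(4P) = X(P)`
  have h16 : g16F (cA W) (cB W) X = 0 := by
    rw [g16F_eq, hX, mul_zero, neg_zero]
  rw [g16F_of_rel hrel1] at h16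
  have hrel3 : nF (cA W) (cB W) x₂ = X * (4 * fF (cA W) (cB W) x₂) := by
    rcases mul_eq_zero.mp h16 with h | h
    · exact absurd (pow_eq_zero_iff (by norm_num) |>.mp h) h4f
    · exact sub_eq_zero.mp h
  have hx4 : sx W ((P + P) + (P + P)) = sx W P := by
    rw [hPX]
    have h4f₂ : (4 : K) * fF (cA W) (cB W) x₂ ≠ 0 := mul_ne_zero (by norm_num) hfx₂
    apply mul_right_cancel₀ h4f₂
    rw [hrel2, hrel3]
  rcases (sx_eq_iff W h4 hP0).mp hx4 with h' | h'
  · -- `4P = P`, so `3P = 0`, so `ψ₃(X) = 0`: contradiction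
    exfalso
    apply hpsi3
    rw [← hPX]
    apply psi3_of_three_torsion W hP0
    have : (3 : ℤ) • P = ((P + P) + (P + P)) - P := by abel
    rw [this, h', sub_self]
  · have : (5 : ℤ) • P = ((P + P) + (P + P)) + P := by abel
    rw [this, h', neg_add_cancel]

end Fermat.Agent.S51.Tors.Exists
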