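import Fermat.Agent.S51.Tors.Dup

/-!
# S51, elliptic-curve side, part 2: the shifted `x`-coordinate on points

`sx P = x(P) + b₂/12` and its behaviour under negation and duplication.
-/

namespace Fermat.Agent.S51.Tors.PointX

open WeierstrassCurve Fermat.Agent.S51.Tors.Dup

variable {F : Type*} [Field F] [DecidableEq F] (W : WeierstrassCurve.Affine F)

/-- shifted `x`-coordinate of a point (junk value `0` at the origin) -/
def sx : W.Point → F
  | .zero => 0
  | .some x _ _ => x + W.b₂ / 12

@[simp] lemma sx_some {x y : F} (h : W.Nonsingular x y) :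
    sx W (Affine.Point.some x y h) = x + W.b₂ / 12 := rfl

lemma sx_neg (P : W.Point) : sx W (-P) = sx W P := by
  cases P with
  | zero => rfl
  | some x y h => rfl

lemma sx_eq_iff {P Q : W.Point} (hP : P ≠ 0) (hQ : Q ≠ 0) :
    sx W P = sx W Q ↔ P = Q ∨ P = -Q := by
  cases P with
  | zero => exact absurd rfl hP
  | some x y h =>
    cases Q with
    | zero => exact absurd rfl hQ
    | some x' y' h' =>
      rw [sx_some, sx_some, add_left_inj]
      exact Affine.Point.X_eq_iff

variable [CharZero F]

lemma add_self_eq_zero_iff {P : W.Point} (hP : P ≠ 0) :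
    P + P = 0 ↔ fF (cA W) (cB W) (sx W P) = 0 := by
  cases P with
  | zero => exact absurd rfl hP
  | some x y h =>
    have key : fF (cA W) (cB W) (x + W.b₂ / 12) = 0 ↔ y = W.negY x y := by
      have h1 := eta_sq_shift W h.1
      rw [← sub_eq_zero (a := y), ← eta_eq]
      constructor
      · intro h0
        rw [h0, mul_zero] at h1
        exact pow_eq_zero_iff (two_ne_zero) |>.mp h1
      · intro h0
        rw [h0] at h1
        have : (4 : F) * fF (cA W) (cB W) (x + W.b₂ / 12) = 0 := by rw [← h1]; ring
        rcases mul_eq_zero.mp this with h4 | h4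
        · exact absurd h4 (by norm_num)
        · exact h4
    rw [sx_some, key]
    constructor
    · intro h0
      by_contra hy
      rw [Affine.Point.add_self_of_Y_ne hy] at h0
      exact Affine.Point.some_ne_zero _ h0
    · intro hy
      exact Affine.Point.add_self_of_Y_eq hy

lemma sx_add_self {P : W.Point} (hP : P ≠ 0) (h2 : P + P ≠ 0) :
    sx W (P + P) * (4 * fF (cA W) (cB W) (sx W P)) = nF (cA W) (cB W) (sx W P) := by
  cases P with
  | zero => exact absurd rfl hP
  | some x y h =>
    have hy : y ≠ W.negY x y := fun hy => h2 (Affine.Point.add_self_of_Y_eq hy)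
    rw [Affine.Point.add_self_of_Y_ne hy, sx_some, sx_some]
    exact addX_self_shift W h.1 hy

end Fermat.Agent.S51.Tors.PointX
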