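import Fermat.Agent.S51.Tors.Exists
import Fermat.Statements.S51

/-!
# S51, elliptic-curve side, part 5: Galois-stable lines in `E[3]` and `E[5]` give rational data
-/

set_option linter.unusedSectionVars false

namespace Fermat.Agent.S51.Tors.Torsion

open WeierstrassCurve WeierstrassCurve.Affine WeierstrassCurve.Affine.Point
open Fermat.Agent.S51.Tors.Dup Fermat.Agent.S51.Tors.PointX Fermat.Agent.S51.Tors.Count Fermat.Agent.S51.Tors.Exists

section Generic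

variable {K : Type*} [Field K] [DecidableEq K] [CharZero K] [Algebra ℚ K]
  (W' : WeierstrassCurve.Affine ℚ)

lemma baseChange_eq : (W'⁄K) = WeierstrassCurve.map W' (algebraMap ℚ K) := rfl

lemma cA_baseChange : cA (W'⁄K) = algebraMap ℚ K (cA W') := by
  rw [baseChange_eq]
  simp only [cA, WeierstrassCurve.map_c₄, map_div₀, map_neg, map_ofNat]

lemma cB_baseChange : cB (W'⁄K) = algebraMap ℚ K (cB W') := by
  rw [baseChange_eq]
  simp only [cB, WeierstrassCurve.map_c₆, map_div₀, map_neg, map_ofNat]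

lemma b₂_baseChange : (W'⁄K).b₂ = algebraMap ℚ K W'.b₂ := by
  rw [baseChange_eq, WeierstrassCurve.map_b₂]

lemma Δ_baseChange_ne_zero (hΔ : W'.Δ ≠ 0) : (W'⁄K).Δ ≠ 0 := by
  rw [baseChange_eq, WeierstrassCurve.map_Δ]
  exact (map_ne_zero_iff _ (algebraMap ℚ K).injective).mpr hΔ

lemma sx_smul (σ : K ≃ₐ[ℚ] K) (P : (W'⁄K).Point) :
    sx (W'⁄K) (σ • P) = σ (sx (W'⁄K) P) := by
  cases P with
  | zero =>
    show (0 : K) = σ 0
    rw [_root_.map_zero]
  | some x y h =>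
    show σ x + (W'⁄K).b₂ / 12 = σ (x + (W'⁄K).b₂ / 12)
    rw [map_add, map_div₀, map_ofNat, b₂_baseChange, AlgEquiv.commutes]

lemma smul_eq_zero_iff' (σ : K ≃ₐ[ℚ] K) (P : (W'⁄K).Point) : σ • P = 0 ↔ P = 0 := by
  constructor
  · intro h
    have : σ⁻¹ • (σ • P) = P := inv_smul_smul σ P
    rw [← this, h]
    rfl
  · rintro rfl
    rfl

end Generic

section Lines

variable {K : Type*} [Field K] [DecidableEq K] [CharZero K] [Algebra ℚ K]
  (W' : WeierstrassCurve.Affine ℚ)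

/-- the `ZMod n`-action on the torsion module in terms of the group law -/
lemma coe_zmod_smul (n : ℕ) [NeZero n] (c : ZMod n)
    (v : Submodule.torsionBy ℤ (W'⁄K).Point n) :
    ((c • v : Submodule.torsionBy ℤ (W'⁄K).Point n) : (W'⁄K).Point) =
      c.val • (v : (W'⁄K).Point) := by
  conv_lhs => rw [← ZMod.natCast_zmod_val c, Nat.cast_smul_eq_nsmul]
  rfl

lemma coe_galois_smul (n : ℕ) (σ : K ≃ₐ[ℚ] K) (v : Submodule.torsionBy ℤ (W'⁄K).Point n) :
    ((σ • v : Submodule.torsionBy ℤ (W'⁄K).Point n) : (W'⁄K).Point) =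
      σ • (v : (W'⁄K).Point) := rfl

/-- a Galois-stable proper nonzero submodule of `E[p]` is generated by a point `P`, and every
Galois conjugate of `P` is a nonzero multiple of `P` -/
theorem exists_stable_point (p : ℕ) [Fact p.Prime] (B : ℕ) (hB : B + 1 < p ^ 3)
    (hcount : ∀ T : Finset (W'⁄K).Point, (∀ P ∈ T, P ≠ 0 ∧ (p : ℤ) • P = 0) → T.card ≤ B)
    (N : Submodule (ZMod p) (Submodule.torsionBy ℤ (W'⁄K).Point p))
    (hst : IsGaloisStable ℚ N) (h0 : N ≠ ⊥) (h1 : N ≠ ⊤) :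
    ∃ P : (W'⁄K).Point, P ≠ 0 ∧ (p : ℤ) • P = 0 ∧
      ∀ σ : K ≃ₐ[ℚ] K, ∃ k : ℕ, 0 < k ∧ k < p ∧ σ • P = k • P := by
  classical
  have : NeZero p := ⟨(Fact.out : p.Prime).ne_zero⟩
  have hM : ∀ T : Finset (Submodule.torsionBy ℤ (W'⁄K).Point p), (∀ v ∈ T, v ≠ 0) →
      T.card ≤ B := by
    intro T hT
    have := hcount (T.map (Function.Embedding.subtype _)) (by
      intro P hP
      obtain ⟨v, hv, rfl⟩ := Finset.mem_map.mp hP
      refine ⟨fun h => hT v hv (Subtype.ext h), ?_⟩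
      exact (Submodule.mem_torsionBy_iff _ _).mp v.2)
    rwa [Finset.card_map] at this
  obtain ⟨v, hvN, hv0, hgen⟩ := exists_generator B hB hM N h0 h1
  have hP0 : (v : (W'⁄K).Point) ≠ 0 := fun h => hv0 (Subtype.ext h)
  refine ⟨v, hP0, (Submodule.mem_torsionBy_iff _ _).mp v.2, ?_⟩
  intro σ
  obtain ⟨c, hc⟩ := hgen _ (hst σ v hvN)
  have hc' : σ • (v : (W'⁄K).Point) = c.val • (v : (W'⁄K).Point) := by
    rw [← coe_zmod_smul, ← hc]
    rfl
  refine ⟨c.val, ?_, ZMod.val_lt c, hc'⟩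
  rcases Nat.eq_zero_or_pos c.val with h | h
  · exfalso
    rw [h, zero_smul] at hc'
    exact hP0 ((smul_eq_zero_iff' W' σ _).mp hc')
  · exact h

end Lines

section Rational

variable {K : Type*} [Field K] [DecidableEq K] [CharZero K] [Algebra ℚ K] [IsAlgClosed K]
  [IsGalois ℚ K] (W' : WeierstrassCurve.Affine ℚ)

lemma fixed_rational {x : K} (h : ∀ σ : K ≃ₐ[ℚ] K, σ x = x) : ∃ q : ℚ, algebraMap ℚ K q = x :=
  (InfiniteGalois.mem_range_algebraMap_iff_fixed x).mpr h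

/-- `p = 3`: reducibility gives a rational root of `ψ₃` -/
theorem three_rational (hΔ : W'.Δ ≠ 0) (h : ¬ GaloisRepIsIrreducible (K := K) ℚ W' 3) :
    ∃ X : ℚ, psi3F (cA W') (cB W') X = 0 := by
  have hΔK := Δ_baseChange_ne_zero (K := K) W' hΔ
  have : Fact (Nat.Prime 3) := ⟨by norm_num⟩
  have hnt : Nontrivial (Submodule.torsionBy ℤ (W'⁄K).Point (3 : ℕ)) := by
    obtain ⟨P, hP0, hP3⟩ := exists_three_torsion (W'⁄K) hΔK
    refine ⟨⟨⟨P, (Submodule.mem_torsionBy_iff _ _).mpr (by exact_mod_cast hP3)⟩, 0, ?_⟩⟩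
    intro h
    exact hP0 (congrArg Subtype.val h)
  unfold GaloisRepIsIrreducible at h
  rw [not_and] at h
  have h' := h hnt
  push Not at h'
  obtain ⟨N, hst, h0, h1⟩ := h'
  obtain ⟨P, hP0, hP3, hσ⟩ := exists_stable_point W' 3 8 (by norm_num) (by
    intro T hT
    exact card_three_torsion_le (W'⁄K) T (fun P hP => ⟨(hT P hP).1, by exact_mod_cast (hT P hP).2⟩))
    N hst h0 h1
  have hP3' : (3 : ℤ) • P = 0 := by exact_mod_cast hP3
  have hfix : ∀ σ : K ≃ₐ[ℚ] K, σ (sx (W'⁄K) P) = sx (W'⁄K) P := by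
    intro σ
    rw [← sx_smul]
    obtain ⟨k, hk0, hk3, hk⟩ := hσ σ
    rw [hk]
    interval_cases k
    · rw [one_smul]
    · have : (2 : ℕ) • P = -P := by
        have : (2 : ℕ) • P = (3 : ℤ) • P - P := by
          rw [show ((3 : ℤ) • P) = (3 : ℕ) • P by exact_mod_cast rfl]
          abel
        rw [this, hP3', zero_sub]
      rw [this, sx_neg]
  obtain ⟨q, hq⟩ := fixed_rational hfix
  refine ⟨q, ?_⟩
  have h3 := psi3_of_three_torsion (W'⁄K) hP0 hP3'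
  rw [← hq, cA_baseChange, cB_baseChange] at h3
  have : algebraMap ℚ K (psi3F (cA W') (cB W') q) = 0 := by
    rw [← h3]
    simp only [psi3F, map_add, map_sub, map_mul, map_pow, map_ofNat]
  exact (map_eq_zero_iff _ (algebraMap ℚ K).injective).mp this

/-- `p = 5`: reducibility gives `x₁, x₂` with rational sum and product satisfying the mutual
duplication relations -/
theorem five_rational (hΔ : W'.Δ ≠ 0) (h : ¬ GaloisRepIsIrreducible (K := K) ℚ W' 5) :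
    ∃ x₁ x₂ : K, (∃ s : ℚ, algebraMap ℚ K s = x₁ + x₂) ∧ (∃ t : ℚ, algebraMap ℚ K t = x₁ * x₂) ∧
      x₁ ≠ x₂ ∧
      fF (algebraMap ℚ K (cA W')) (algebraMap ℚ K (cB W')) x₁ ≠ 0 ∧
      fF (algebraMap ℚ K (cA W')) (algebraMap ℚ K (cB W')) x₂ ≠ 0 ∧
      x₂ * (4 * fF (algebraMap ℚ K (cA W')) (algebraMap ℚ K (cB W')) x₁) =
        nF (algebraMap ℚ K (cA W')) (algebraMap ℚ K (cB W')) x₁ ∧
      x₁ * (4 * fF (algebraMap ℚ K (cA W')) (algebraMap ℚ K (cB W')) x₂) =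
        nF (algebraMap ℚ K (cA W')) (algebraMap ℚ K (cB W')) x₂ := by
  have hΔK := Δ_baseChange_ne_zero (K := K) W' hΔ
  have : Fact (Nat.Prime 5) := ⟨by norm_num⟩
  have hnt : Nontrivial (Submodule.torsionBy ℤ (W'⁄K).Point (5 : ℕ)) := by
    obtain ⟨P, hP0, hP5⟩ := exists_five_torsion (W'⁄K) hΔK
    refine ⟨⟨⟨P, (Submodule.mem_torsionBy_iff _ _).mpr (by exact_mod_cast hP5)⟩, 0, ?_⟩⟩
    intro h
    exact hP0 (congrArg Subtype.val h)
  unfold GaloisRepIsIrreducible at h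
  rw [not_and] at h
  have h' := h hnt
  push Not at h'
  obtain ⟨N, hst, h0, h1⟩ := h'
  obtain ⟨P, hP0, hP5, hσ⟩ := exists_stable_point W' 5 32 (by norm_num) (by
    intro T hT
    exact card_five_torsion_le (W'⁄K) T (fun P hP => ⟨(hT P hP).1, by exact_mod_cast (hT P hP).2⟩))
    N hst h0 h1
  have hP5' : (5 : ℤ) • P = 0 := by exact_mod_cast hP5
  obtain ⟨hQ, h4, hne, hf1, hf2, hr1, hr2⟩ := five_torsion (W'⁄K) hP0 hP5'
  have hswap : ∀ σ : K ≃ₐ[ℚ] K,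
      (σ (sx (W'⁄K) P) = sx (W'⁄K) P ∧ σ (sx (W'⁄K) (P + P)) = sx (W'⁄K) (P + P)) ∨
      (σ (sx (W'⁄K) P) = sx (W'⁄K) (P + P) ∧ σ (sx (W'⁄K) (P + P)) = sx (W'⁄K) P) := by
    intro σ
    rw [← sx_smul, ← sx_smul]
    have hadd : σ • (P + P) = σ • P + σ • P := smul_add σ P P
    rw [hadd]
    obtain ⟨k, hk0, hk5, hk⟩ := hσ σ
    rw [hk]
    interval_cases k
    · left
      rw [one_smul]
      exact ⟨rfl, rfl⟩
    · right
      rw [two_nsmul, h4, sx_neg]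
      exact ⟨rfl, rfl⟩
    · right
      have e3 : (3 : ℕ) • P = -(P + P) := by
        have : (3 : ℕ) • P = (5 : ℤ) • P - (P + P) := by
          rw [show ((5 : ℤ) • P) = (5 : ℕ) • P by exact_mod_cast rfl]
          abel
        rw [this, hP5', zero_sub]
      rw [e3, ← neg_add, h4, neg_neg, sx_neg]
      exact ⟨rfl, rfl⟩
    · left
      have e4 : (4 : ℕ) • P = -P := by
        rw [← h4]; abel
      rw [e4, ← neg_add, sx_neg, sx_neg]
      exact ⟨rfl, rfl⟩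
  have hsum : ∀ σ : K ≃ₐ[ℚ] K,
      σ (sx (W'⁄K) P + sx (W'⁄K) (P + P)) = sx (W'⁄K) P + sx (W'⁄K) (P + P) := by
    intro σ
    rw [map_add]
    rcases hswap σ with ⟨e1, e2⟩ | ⟨e1, e2⟩
    · rw [e1, e2]
    · rw [e1, e2, add_comm]
  have hprod : ∀ σ : K ≃ₐ[ℚ] K,
      σ (sx (W'⁄K) P * sx (W'⁄K) (P + P)) = sx (W'⁄K) P * sx (W'⁄K) (P + P) := by
    intro σ
    rw [map_mul]
    rcases hswap σ with ⟨e1, e2⟩ | ⟨e1, e2⟩
    · rw [e1, e2]
    · rw [e1, e2, mul_comm]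
  rw [cA_baseChange, cB_baseChange] at hf1 hf2 hr1 hr2
  exact ⟨sx (W'⁄K) P, sx (W'⁄K) (P + P), fixed_rational hsum, fixed_rational hprod, hne,
    hf1, hf2, hr1, hr2⟩

end Rational

section Final

/-- `ℚ̄/ℚ` is Galois for the `ℚ`-algebra structure used by the frozen statement -/
theorem isGalois_rat :
    @IsGalois ℚ _ (AlgebraicClosure ℚ) _ DivisionRing.toRatAlgebra := by
  have h : (DivisionRing.toRatAlgebra : Algebra ℚ (AlgebraicClosure ℚ)) =
      AlgebraicClosure.instAlgebra ℚ := Subsingleton.elim _ _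
  rw [h]
  infer_instance

/-- the short-form invariant `A = -c₄/48` of the rational curve attached to `W` -/
noncomputable def qA (W : WeierstrassCurve ℤ) : ℚ := cA (W.map (Int.castRingHom ℚ))

/-- the short-form invariant `B = -c₆/864` of the rational curve attached to `W` -/
noncomputable def qB (W : WeierstrassCurve ℤ) : ℚ := cB (W.map (Int.castRingHom ℚ))

lemma qA_eq (W : WeierstrassCurve ℤ) : qA W = -(W.c₄ : ℚ) / 48 := by
  simp [qA, cA, WeierstrassCurve.map_c₄]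

lemma qB_eq (W : WeierstrassCurve ℤ) : qB W = -(W.c₆ : ℚ) / 864 := by
  simp [qB, cB, WeierstrassCurve.map_c₆]

lemma discF_qA_qB (W : WeierstrassCurve ℤ) : discF (qA W) (qB W) = -(W.Δ : ℚ) / 16 := by
  rw [qA, qB, discF_eq, WeierstrassCurve.map_Δ]
  simp

/-- INTERFACE (p = 3): if the mod 3 representation is not irreducible, `ψ₃` has a rational root -/
theorem three_of_not_irreducible (W : WeierstrassCurve ℤ) (hΔ : W.Δ ≠ 0)
    (h : ¬ W.ModRepIsIrreducible 3) :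
    ∃ X : ℚ, 3 * X ^ 4 + 6 * qA W * X ^ 2 + 12 * qB W * X - qA W ^ 2 = 0 := by
  have hΔ' : (W.map (Int.castRingHom ℚ)).Δ ≠ 0 := by
    rw [WeierstrassCurve.map_Δ]
    simpa using hΔ
  have := isGalois_rat
  exact three_rational (K := AlgebraicClosure ℚ) (W.map (Int.castRingHom ℚ)) hΔ' h

/-- INTERFACE (p = 5): if the mod 5 representation is not irreducible, there are `x₁ ≠ x₂` in `ℚ̄`
with rational sum and product satisfying the mutual duplication relations -/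
theorem five_of_not_irreducible (W : WeierstrassCurve ℤ) (hΔ : W.Δ ≠ 0)
    (h : ¬ W.ModRepIsIrreducible 5) :
    ∃ x₁ x₂ : AlgebraicClosure ℚ, (∃ s : ℚ, (s : AlgebraicClosure ℚ) = x₁ + x₂) ∧
      (∃ t : ℚ, (t : AlgebraicClosure ℚ) = x₁ * x₂) ∧ x₁ ≠ x₂ ∧
      x₁ ^ 3 + (qA W : AlgebraicClosure ℚ) * x₁ + (qB W : AlgebraicClosure ℚ) ≠ 0 ∧
      x₂ ^ 3 + (qA W : AlgebraicClosure ℚ) * x₂ + (qB W : AlgebraicClosure ℚ) ≠ 0 ∧
      x₂ * (4 * (x₁ ^ 3 + (qA W : AlgebraicClosure ℚ) * x₁ + (qB W : AlgebraicClosure ℚ))) =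
        x₁ ^ 4 - 2 * (qA W : AlgebraicClosure ℚ) * x₁ ^ 2 - 8 * (qB W : AlgebraicClosure ℚ) * x₁
          + (qA W : AlgebraicClosure ℚ) ^ 2 ∧
      x₁ * (4 * (x₂ ^ 3 + (qA W : AlgebraicClosure ℚ) * x₂ + (qB W : AlgebraicClosure ℚ))) =
        x₂ ^ 4 - 2 * (qA W : AlgebraicClosure ℚ) * x₂ ^ 2 - 8 * (qB W : AlgebraicClosure ℚ) * x₂
          + (qA W : AlgebraicClosure ℚ) ^ 2 := by
  have hΔ' : (W.map (Int.castRingHom ℚ)).Δ ≠ 0 := by
    rw [WeierstrassCurve.map_Δ]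
    simpa using hΔ
  have := isGalois_rat
  obtain ⟨x₁, x₂, ⟨s, hs⟩, ⟨t, ht⟩, hne, hf1, hf2, hr1, hr2⟩ :=
    five_rational (K := AlgebraicClosure ℚ) (W.map (Int.castRingHom ℚ)) hΔ' h
  refine ⟨x₁, x₂, ⟨s, ?_⟩, ⟨t, ?_⟩, hne, ?_, ?_, ?_, ?_⟩
  · rw [← hs]; rfl
  · rw [← ht]; rfl
  · exact hf1
  · exact hf2
  · exact hr1
  · exact hr2

end Final

end Fermat.Agent.S51.Tors.Torsion
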